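import Fermat.Agent.RIB.Hard.Main
import Fermat.Agent.ML.Low.Rho.Main

/-!
# ML / Low / Hard / Main : port of `RIB/Hard/Main.lean` from `ECtx` to `MCtx`

`adjoin_range_rbar0`, `adjoin_range_rho`, `hardOut_of_key` (`q ≠ 2` replaced by `hnr : ¬ Ram rbar0 q`; `q = 2` is allowed here).
-/

set_option autoImplicit false
set_option linter.unusedSectionVars false
set_option linter.style.haveILetI false

noncomputable section

open AlgebraicCurve ModularCurve Module IsLocalRing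

namespace Fermat.Agent.ML.Low

open Fermat.Agent.RIB Fermat.Agent.RIB.Rho Fermat.Agent.GAL Fermat.Agent.GAL.PC Fermat.Agent.TW.TR

local notation "Qbar" => AlgebraicClosure ℚ
local notation "GQ" => (AlgebraicClosure ℚ ≃ₐ[ℚ] AlgebraicClosure ℚ)
local notation "M₂" => Matrix (Fin 2) (Fin 2)

open Fermat.Agent.RIB.Hard ExtCitation
open Fermat.Agent.S56 (inert ScalarMod)
open Fermat.Agent.CFT (decomp)

variable {p : ℕ} [Fact p.Prime] {T : Finset ℕ} {θ : ℕ → ℤ} {rbar0 : GQ →* M₂ (ZMod p)}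

/-- the residual representation spans `M₂(𝔽_p)`. -/
theorem adjoin_range_rbar0 (EC : MCtx p T θ rbar0) :
    Algebra.adjoin (ZMod p) (Set.range rbar0) = ⊤ := by
  obtain ⟨σ₀, τ₀, u, hu, hnf⟩ := EC.nf
  have hp2 := MCtx.two_ne_zero EC
  haveI : NeZero p := ⟨(Fact.out : p.Prime).ne_zero⟩
  let c : GQ →* ZMod p := (Units.coeHom (ZMod p)).comp (ExtCitation.cycloChar p)
  have hc : ∀ g, c g = ((ExtCitation.cycloChar p g : (ZMod p)ˣ) : ZMod p) := fun _ => rfl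
  have hps : TW.TR.IsPseudo (fun g => (rbar0 g).trace) c := by
    refine Rho.isPseudo_of_spec (E := M₂ (ZMod p)) (γ := rbar0) (fun g => ?_)
      (algebraMap (ZMod p) (M₂ (ZMod p))).injective
    rw [hc, ← EC.det, Algebra.algebraMap_eq_smul_one]
    exact add_det_smul_inv (rbar0 g) (rbar0 g⁻¹) (by rw [← map_mul, mul_inv_cancel, map_one])
  have hcc : c complexConjugation = -1 := GAL.PC.cycloChar_complexConjugation p
  exact adjoin_range_rhoMat_eq_top hps (inv_mul_cancel₀ hp2) complexConjugation_mul_self hcc hu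
    rbar0 hnf

section

variable {L : ℕ} [NeZero L] {S : Set ℕ}
  {R : Type} [CommRing R] [IsLocalRing R] [Algebra (ZMod p) R] [Module R ↥(WS L p S θ)]
  [IsScalarTower (ZMod p) R ↥(WS L p S θ)]
  {π0 : R →ₐ[ZMod p] ZMod p} {ρ : GQ →* M₂ R} {Φ : M₂ R →ₐ[R] Module.End R ↥(WS L p S θ)}

theorem adjoin_range_rho (EC : MCtx p T θ rbar0) (H : IsRho L p S θ rbar0 π0 ρ Φ) :
    Algebra.adjoin R (Set.range ρ) = ⊤ :=
  adjoin_range_eq_top_of_residual (π0 : R →+* ZMod p) (pi0_surjective π0)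
    (mem_maximalIdeal_of_pi0 π0) ρ rbar0 H.lift (adjoin_range_rbar0 EC)

end

set_option maxHeartbeats 4000000 in
/-- **(B5, HARD)** from (KEY) in the consumer form. -/
theorem hardOut_of_key (EC : MCtx p T θ rbar0) (S : Set ℕ) (L q : ℕ) [NeZero L] (hq : q.Prime)
    (hnr : ¬ Ram rbar0 q) (hqp : q ≠ p) (hqL : q ∣ L) (hqq : ¬ q ^ 2 ∣ L)
    (hkey : ∀ σ : GQ, (primeLocalPlace ⟨q, hq⟩).IsFrobeniusAt σ q →
      ∃ w : JZero L →+ JZero L, (∀ x, w (w x) = x) ∧ (∀ (g : GQ) x, w (g • x) = g • w x) ∧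
        (∀ x ∈ thetaPart L p S θ, w x ∈ thetaPart L p S θ) ∧
        ∀ x ∈ thetaPart L p S θ,
          (∀ τ ∈ (primeLocalPlace ⟨q, hq⟩).inertiaSubgroupIn ℚ, τ • x = x) → σ • x + q • w x = 0) :
    HardOut L p S θ rbar0 ⟨q, hq⟩ := by
  intro R _ _ _ _ _ π0 ρ Φ H
  have hp : p.Prime := Fact.out
  set v : Nat.Primes := ⟨q, hq⟩ with hv
  have hA : (primeLocalPlace v).LiesOverPrime q := S56.liesOverPrime_primeLocalPlace v
  have hpR : ∀ X : M₂ R, p • X = 0 := by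
    intro X
    rw [← Nat.cast_smul_eq_nsmul (ZMod p), ZMod.natCast_self, zero_smul]
  -- (UNIP)
  have hun := SS.unip_of_cuspOrd (fun M q _ _ _ => SS.cuspOrd M q) hq hp hqp hqL hqq
  have hunV : ∀ τ ∈ inert v, ∀ x : ↥(WS L p S θ), τ • τ • x - 2 • τ • x + x = 0 := by
    intro τ hτ x
    have h1 := hun (primeLocalPlace v) hA τ hτ x.1 ⟨1, by rw [pow_one]; exact x.2.2⟩
    apply Subtype.ext
    rw [AddSubgroup.coe_add, AddSubgroup.coe_sub, AddSubgroup.coe_nsmul, coe_smul_WS, coe_smul_WS,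
      AddSubgroup.coe_zero]
    exact h1
  have hNN : ∀ τ ∈ inert v, (ρ τ - 1) * (ρ τ - 1) = 0 := by
    intro τ hτ
    exact sq_zero_of_unip Φ ρ H.act H.faithful τ (hunV τ hτ)
  have htors : ∀ τ ∈ inert v, ρ τ ^ p = 1 := by
    intro τ hτ
    have h1 := S56.one_add_pow_of_sq_zero (ρ τ - 1) (hNN τ hτ) p
    rwa [add_sub_cancel, hpR, add_zero] at h1
  -- generators
  obtain ⟨τ₀, hτ₀, hin, hdec⟩ := S56.exists_local_gens ρ (cont_of_isRho H) v p
    ((Nat.coprime_primes hp hq).2 (Ne.symm hqp)) htors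
  obtain ⟨φ, hφ⟩ := S54.exists_isFrobeniusAt_of_liesOverPrime hq (primeLocalPlace v) hA
  obtain ⟨w, hww, hwg, hwθ, hk⟩ := hkey φ hφ
  -- `w` on `V`
  obtain ⟨wV, hwV⟩ : ∃ wV : ↥(WS L p S θ) →ₗ[ZMod p] ↥(WS L p S θ),
      ∀ x, ((wV x : ↥(WS L p S θ)) : JZero L) = w x.1 :=
    ⟨AddMonoidHom.toZModLinearMap p
      { toFun := fun x => ⟨w x.1, map_mem_WS w hwθ x.2⟩
        map_zero' := Subtype.ext (map_zero w)
        map_add' := fun x y => Subtype.ext (map_add w x.1 y.1) }, fun _ => rfl⟩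
  have hfixall : ∀ x : ↥(WS L p S θ), τ₀ • x = x → ∀ τ ∈ inert v, τ • x = x := by
    intro x hx τ hτ
    obtain ⟨b, hb⟩ := hin τ hτ
    exact smul_eq_of_rho_eq_pow Φ ρ H.act hb hx
  have hdetτ : (ρ τ₀).det = 1 := by
    rw [H.det, show ExtCitation.cycloChar p τ₀ = 1 from GAL.cycloChar_of_mem_inertia hq hqp hA hτ₀,
      Units.val_one, map_one]
  have hdetφ : (ρ φ).det = (q : R) := by
    rw [H.det, show ((ExtCitation.cycloChar p φ : (ZMod p)ˣ) : ZMod p) = (q : ZMod p) from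
      GAL.cycloChar_of_isFrobeniusAt hq hqp hA hφ, map_natCast]
  have hq0 : (q : ZMod p) ≠ 0 := by
    rw [Ne, ZMod.natCast_eq_zero_iff, Nat.prime_dvd_prime_iff_eq hp hq]
    exact Ne.symm hqp
  have hτm : ∀ a b, (ρ τ₀ - 1) a b ∈ maximalIdeal R := by
    intro a b
    refine mem_maximalIdeal_of_pi0 π0 _ ?_
    have h1 := congrFun (congrFun (H.lift τ₀) a) b
    rw [unram_of_not_ram hnr _ hA τ₀ hτ₀, Matrix.map_apply] at h1
    rw [Matrix.sub_apply, map_sub, h1]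
    by_cases hab : a = b
    · rw [hab, Matrix.one_apply_eq, Matrix.one_apply_eq, map_one, sub_self]
    · rw [Matrix.one_apply_ne hab, Matrix.one_apply_ne hab, map_zero, sub_self]
  have hkV : ∀ x : ↥(WS L p S θ), τ₀ • x = x → φ • x + q • wV x = 0 := by
    intro x hx
    have h1 := hk x.1 x.2.1 fun τ hτ =>
      (coe_smul_WS τ x).symm.trans (congrArg Subtype.val (hfixall x hx τ hτ))
    have e : ((φ • x + q • wV x : ↥(WS L p S θ)) : JZero L) = φ • x.1 + q • w x.1 :=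
      (AddSubgroup.coe_add _ _ _).trans (congrArg₂ (· + ·) (coe_smul_WS φ x)
        ((AddSubgroup.coe_nsmul _ _ _).trans (congrArg (q • ·) (hwV x))))
    exact Subtype.ext ((e.trans h1).trans (AddSubgroup.coe_zero _).symm)
  obtain ⟨hq1, ε, hε, hS, hN2, hdet1, hkeyV⟩ := hard_alg (k := ZMod p) Φ ρ H.act H.faithful
    (adjoin_range_rho EC H) H.tr (fun g => ⟨_, H.det g⟩) (exists_socle_of_isRho H) τ₀ φ q hτm
    (hunV τ₀ hτ₀) hdetτ hdetφ hq0 wV
    (fun x => Subtype.ext ((hwV (wV x)).trans ((congrArg w (hwV x)).trans (hww x.1))))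
    (fun g x => Subtype.ext ((hwV (g • x)).trans ((hwg g x.1).trans
      ((congrArg (g • ·) (hwV x)).symm.trans (coe_smul_WS g (wV x)).symm))))
    hkV
  refine ⟨ρ τ₀ - 1, ρ φ, ε, by rcases hε with rfl | rfl <;> ring, hS, hτm, hN2, hdet1, hkeyV,
    fun σ hσ => ?_⟩
  set J : Ideal R := entryIdeal (ρ τ₀ - 1) ⊔ entryIdeal (ρ φ - ε • (1 : M₂ R)) with hJ
  have s1 : ScalarMod (ZMod p) J (ρ τ₀) :=
    ⟨1, fun a b => by
      rw [map_one, one_smul, ← Matrix.sub_apply]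
      exact Ideal.mem_sup_left (entry_mem_entryIdeal _ a b)⟩
  have s2 : ScalarMod (ZMod p) J (ρ φ) := by
    obtain ⟨c, hc⟩ : ∃ c : ZMod p, algebraMap (ZMod p) R c = ε := by
      rcases hε with rfl | rfl
      · exact ⟨1, map_one _⟩
      · exact ⟨-1, by rw [map_neg, map_one]⟩
    exact ⟨c, fun a b => by
      rw [hc, ← Matrix.sub_apply]
      exact Ideal.mem_sup_right (entry_mem_entryIdeal _ a b)⟩
  obtain ⟨a, b, hab⟩ := hdec φ hφ σ hσ
  obtain ⟨c, hc⟩ : ScalarMod (ZMod p) J (ρ σ) := by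
    rw [hab]
    exact (s2.pow a).mul (s1.pow b)
  exact ⟨c, fun a b => hc a b⟩

end Fermat.Agent.ML.Low
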