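import Fermat.Agent.RIB.Hard.Out
import Fermat.Agent.ML.Low.Hard.Main

/-!
# ML / Low / Hard / Out : port of `RIB/Hard/Out.lean` from `ECtx` to `MCtx`

`hard_out'` : `q ≠ 2` replaced by `hnr : ¬ Ram rbar0 q`, no `hpL`.
-/

set_option autoImplicit false
set_option linter.unusedSectionVars false
set_option linter.style.haveILetI false

noncomputable section

open AlgebraicCurve ModularCurve Module IsLocalRing

namespace Fermat.Agent.ML.Low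

open Fermat.Agent.RIB Fermat.Agent.RIB.Rho Fermat.Agent.GAL Fermat.Agent.GAL.PC Fermat.Agent.TW.TR

local notation "Qbar" => AlgebraicClosure ℚ
local notation "GQ" => (AlgebraicClosure ℚ ≃ₐ[ℚ] AlgebraicClosure ℚ)
local notation "M₂" => Matrix (Fin 2) (Fin 2)

variable {p : ℕ} [Fact p.Prime] {T : Finset ℕ} {θ : ℕ → ℤ} {rbar0 : GQ →* M₂ (ZMod p)}

/-- **(B5, HARD)** : `q ‖ L = L₁ q`, `L₁` rigid, `W(L₁) = 0`, `rbar0` unramified at `q`  (`p ∣ L` allowed). -/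
theorem hard_out' (EC : MCtx p T θ rbar0) (S : Finset ℕ) (hTS : T ⊆ S) (L L₁ q : ℕ) [NeZero L]
    [NeZero L₁] (hLq : L = L₁ * q) (hq : q.Prime) (hnr : ¬ Ram rbar0 q) (hqp : q ≠ p) (hqL : ¬ q ∣ L₁)
    (h4 : 4 ∣ L₁) (hL : ∀ r : ℕ, r.Prime → r ∣ L * p → r ∈ S)
    (hvan : WS L₁ p (↑S : Set ℕ) θ = ⊥) : HardOut L p (↑S : Set ℕ) θ rbar0 ⟨q, hq⟩ := by
  have hp : p.Prime := Fact.out
  have : Fact q.Prime := ⟨hq⟩
  obtain ⟨⟨ℓ₀, h1⟩, -, h2, h3⟩ := EC.nonEis S 1 one_pos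
  refine hardOut_of_key EC (↑S : Set ℕ) L q hq hnr hqp (hLq ▸ Dvd.intro_left L₁ rfl) ?_ ?_
  · rw [hLq, pow_two]
    intro hd
    exact hqL (Nat.dvd_of_mul_dvd_mul_right hq.pos hd)
  · intro σ hσ
    exact Key.key_final hLq hqL (Or.inl h4) hp (Ne.symm hqp) _
      (S56.liesOverPrime_primeLocalPlace ⟨q, hq⟩) hσ (↑S : Set ℕ)
      (fun ℓ hℓ hℓS hd => hℓS (Finset.mem_coe.2 (hL ℓ hℓ hd))) θ hvan ℓ₀ h1
      h2 h3

end Fermat.Agent.ML.Low
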